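import Fermat.Agent.H84.ORD.NodalSpecA
import Fermat.Agent.H84.ORD.NodalModelAPI
import Fermat.Agent.H66.ORD.DescDict
import Fermat.Agent.H7.SS2.RegLModel
import Fermat.Agent.H34.KLM.DVR
import Fermat.Agent.H70.SS.RatPlaceModular

/-!
# P-ORD, block B1, row B1-D-HART, part [TOTI] (helper93)

`nmTotIdeal : Fermat.Agent.H84.ORD.NmTotIdealStatement M p` : every centre of a place of
`ℚ̄(X₀(M p))` lies on `C_∞` or on `C_0` (ideal form): `𝔮_∞ ∩ B̄ ⊆ 𝔐_P` or `𝔮_0 ∩ B̄ ⊆ 𝔐_P`.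

Proof: if `f ∈ 𝔮_∞ ∩ B̄`, `f' ∈ 𝔮_0 ∩ B̄` are both units at `P`, descend them to a number field
`K` (helper66's dictionary); over `(K, A ∩ K)` (any ramification) `f₁ f₁' ∈ 𝔪_∞ ∩ 𝔪_0 ∩ B = ϖ B`
(helper7's `TwoComp.exists_eq_mul`), so `f f' = ϖ g` with `g ∈ B̄`, and the value of `f f'` at `P`
lies in `𝔪_A` : contradiction.

Also: `nti_nmChart_le` (the chart is contained in every valuation subring containing `A` and
`y`), `nti_nmChart_le_nmInt` (every `f ∈ B̄(y_P)` has a value in `A` at `P`), `nti_nmY_rat` (the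
chart of `P` is `j` or `j⁻¹`, rational).
-/

set_option autoImplicit false
set_option maxSynthPendingDepth 3
set_option linter.unusedSectionVars false
set_option linter.unusedVariables false
set_option linter.style.haveILetI false
set_option synthInstance.maxHeartbeats 400000
set_option maxHeartbeats 1600000

noncomputable section

namespace Fermat.Agent.H93.ORD

open ModularCurve AlgebraicCurve Polynomial
open Fermat.Agent.H22.KL Fermat.Agent.H7.SS2 Fermat.Agent.H93.KL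
open Fermat.Agent.H9.E6 Fermat.Agent.H66 Fermat.Agent.H66.ORD Fermat.Agent.H84.ORD
open Fermat.Agent.H72.FF Fermat.Agent.H82.SS

section Integral

variable {E : Type*} [Field E]

/-- A valuation subring is integrally closed: ring-homomorphism form. -/
theorem nti_mem_of_isIntegralElem {R : Type*} [CommRing R] (V : ValuationSubring E)
    (g : R →+* E) (hg : ∀ a, g a ∈ V) {y : E} (hy : g.IsIntegralElem y) : y ∈ V := by
  obtain ⟨p, hp, hpy⟩ := hy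
  let φ : R →+* V := g.codRestrict V.toSubring hg
  have hcomp : (algebraMap V E).comp φ = g := by
    ext a
    rfl
  have hint : IsIntegral V y := by
    refine ⟨p.map φ, hp.map φ, ?_⟩
    rw [Polynomial.eval₂_map, hcomp]
    exact hpy
  obtain ⟨w, hw⟩ := (IsIntegrallyClosed.isIntegral_iff (R := V) (K := E)).1 hint
  rw [← hw]
  exact w.2

/-- the nonunits of a valuation subring absorb multiplication by the ring -/
theorem nti_nonunits_mul_mem {V : ValuationSubring E} {a b : E} (ha : a ∈ V.nonunits)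
    (hb : b ∈ V) : a * b ∈ V.nonunits := by
  rw [ValuationSubring.mem_nonunits_iff] at ha ⊢
  rw [map_mul]
  exact mul_lt_one_of_lt_of_le ha ((V.valuation_le_one_iff b).2 hb)

/-- the product of two units of a valuation subring is not a nonunit -/
theorem nti_mul_notMem_nonunits {V : ValuationSubring E} {a b : E} (ha : a ∈ V)
    (hb : b ∈ V) (ha' : a ∉ V.nonunits) (hb' : b ∉ V.nonunits) : a * b ∉ V.nonunits := by
  rw [ValuationSubring.mem_nonunits_iff, not_lt] at ha' hb' ⊢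
  have h1 : V.valuation a = 1 := le_antisymm ((V.valuation_le_one_iff a).2 ha) ha'
  have h2 : V.valuation b = 1 := le_antisymm ((V.valuation_le_one_iff b).2 hb) hb'
  rw [map_mul, h1, h2, one_mul]

end Integral

section Chart

variable {N : ℕ} (A : ValuationSubring Qb)

/-- **The chart `B̄(y)` is contained in every valuation subring containing `A` and `y`.** -/
theorem nti_nmChart_le (V : ValuationSubring (FLb N)) (y : FLb N)
    (hA : ∀ c ∈ A, algebraMap Qb (FLb N) c ∈ V) (hy : y ∈ V) {f : FLb N}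
    (hf : f ∈ nmChart N A y) : f ∈ V := by
  rw [mem_nmChart_iff] at hf
  have hle : nmPoly N A y ≤ V.toSubring := by
    refine Subring.closure_le.2 ?_
    rintro x (⟨c, hc, rfl⟩ | hx)
    · exact hA c hc
    · rw [Set.mem_singleton_iff] at hx
      rw [hx]
      exact hy
  exact nti_mem_of_isIntegralElem V _ (fun a => hle a.2) hf

variable [NeZero N]

/-- every place of `ℚ̄(X₀(N))` has degree one -/
theorem nti_deg (P : Place Qb (FLb N)) : P.deg = 1 :=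
  Fermat.Agent.H70.SS.ss_deg_eq_one_bar N P

/-- the chart coordinate of `P` has a value in `A` at `P` -/
theorem nti_nmY_mem (P : Place Qb (FLb N)) : nmY A P ∈ nmComp A P (nti_deg P) := by
  classical
  unfold nmY
  split_ifs with h
  · exact h
  · exact ((nmComp A P (nti_deg P)).mem_or_inv_mem (nmJ N)).resolve_left h

/-- **Every `f ∈ B̄(y_P)` has a value in `A` at `P`.** -/
theorem nti_nmChart_le_nmInt (P : Place Qb (FLb N)) {f : FLb N}
    (hf : f ∈ nmChart N A (nmY A P)) : ∃ c ∈ A, HasValue P f c :=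
  nti_nmChart_le A (nmComp A P (nti_deg P)) (nmY A P)
    (fun c hc => algebraMap_mem_nmComp A P (nti_deg P) hc) (nti_nmY_mem A P) hf

/-- the rational function `j` -/
def ntiJ (N : ℕ) [NeZero N] : ↥(modularFunctionFieldFull N) :=
  ⟨qExpand ℚ 1 jq, jqd_mem_full N (one_dvd N)⟩

theorem nti_nmJ_eq : nmJ N = Fermat.Agent.H62.SS.ratBar (modularFunctionFieldFull N) (ntiJ N) :=
  rfl

/-- **The chart of `P` is rational** : it is `j` or `j⁻¹`. -/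
theorem nti_nmY_rat (P : Place Qb (FLb N)) :
    ∃ w : ↥(modularFunctionFieldFull N),
      nmY A P = Fermat.Agent.H62.SS.ratBar (modularFunctionFieldFull N) w ∧
      (w = ntiJ N ∨ w = (ntiJ N)⁻¹) := by
  classical
  unfold nmY
  split_ifs with h
  · exact ⟨ntiJ N, nti_nmJ_eq, Or.inl rfl⟩
  · exact ⟨(ntiJ N)⁻¹, by rw [map_inv₀, ← nti_nmJ_eq], Or.inr rfl⟩

theorem nti_coe_ratK_J (K₁ : Type) [Field K₁] [Algebra ℚ K₁] :
    ((Fermat.Agent.H62.SS.ratK (K₁ := K₁) (modularFunctionFieldFull N) (ntiJ N) :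
      ModelField K₁ N) : LaurentSeries K₁) = coeffEmb K₁ jq := by
  show coeffEmb K₁ (qExpand ℚ 1 jq) = coeffEmb K₁ jq
  rw [qExpand_one_apply]

end Chart

section Base

variable {K₁ : Type} [Field K₁] (ι : K₁ →+* Qb) (A : ValuationSubring Qb)

/-- a nonunit of `A ∩ K₁` is a nonunit of `A` -/
theorem nti_map_mem_nonunits {ϖ : ↥(A.comap ι)} (hϖ : ¬ IsUnit ϖ) :
    ι (ϖ : K₁) ∈ A.nonunits := by
  have hmem : ι (ϖ : K₁) ∈ A := ϖ.2
  by_contra hnot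
  apply hϖ
  rw [ValuationSubring.mem_nonunits_iff, not_lt] at hnot
  have h1 : A.valuation (ι (ϖ : K₁)) = 1 :=
    le_antisymm ((A.valuation_le_one_iff _).2 hmem) hnot
  have h0 : (ϖ : K₁) ≠ 0 := by
    intro h0
    rw [h0, map_zero, map_zero] at h1
    exact zero_ne_one h1
  have hinv : (ϖ : K₁)⁻¹ ∈ A.comap ι := by
    show ι (ϖ : K₁)⁻¹ ∈ A
    rw [map_inv₀, ← A.valuation_le_one_iff, map_inv₀, h1, inv_one]
  exact IsUnit.of_mul_eq_one (⟨(ϖ : K₁)⁻¹, hinv⟩ : ↥(A.comap ι))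
    (Subtype.ext (mul_inv_cancel₀ h0))

/-- `p` is not a unit of `A ∩ K₁` -/
theorem nti_natCast_not_isUnit {p : ℕ} (hA : A.LiesOverPrime p) :
    ¬ IsUnit ((p : ℕ) : ↥(A.comap ι)) := by
  intro hu
  obtain ⟨v, hv⟩ := isUnit_iff_exists_inv.1 hu
  have e : ι ((((p : ℕ) : ↥(A.comap ι)) : K₁)) = (p : Qb) := by
    rw [show ((((p : ℕ) : ↥(A.comap ι)) : K₁)) = ((p : ℕ) : K₁) from rfl, map_natCast]
  have h2 : (p : Qb) * ι (v : K₁) = 1 := by
    calc (p : Qb) * ι (v : K₁) = ι ((((p : ℕ) : ↥(A.comap ι)) : K₁)) * ι (v : K₁) := by rw [e]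
      _ = ι (((((p : ℕ) : ↥(A.comap ι)) * v : ↥(A.comap ι)) : K₁)) := by
          rw [← map_mul]
          rfl
      _ = 1 := by
          rw [hv]
          exact map_one ι
  have h3 : A.valuation (p : Qb) < 1 := (A.mem_nonunits_iff).1 hA
  have h4 : A.valuation (ι (v : K₁)) ≤ 1 := (A.valuation_le_one_iff _).2 v.2
  have h5 := congrArg A.valuation h2
  rw [map_mul, map_one] at h5
  have h6 : A.valuation (p : Qb) * A.valuation (ι (v : K₁)) < 1 :=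
    mul_lt_one_of_lt_of_le h3 h4
  rw [h5] at h6
  exact lt_irrefl _ h6

end Base

section Main

variable (M p : ℕ) [NeZero M] [NeZero p]

/-- **[TOTI]** every centre of a place of `ℚ̄(X₀(M p))` lies on `C_∞` or on `C_0`. -/
theorem nmTotIdeal : NmTotIdealStatement M p := by
  classical
  intro A h P
  by_contra hcon
  rw [not_or] at hcon
  obtain ⟨hO, hZ⟩ := hcon
  unfold NmIdealOo at hO
  unfold NmIdealZero at hZ
  push Not at hO hZ
  obtain ⟨f, hfB, hfV, hfred, hfP⟩ := hO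
  obtain ⟨f', hf'B, hf'V, hf'red, hf'P⟩ := hZ
  -- values at `P`
  obtain ⟨a, haA, ha⟩ := nti_nmChart_le_nmInt A P hfB
  obtain ⟨a', ha'A, ha'⟩ := nti_nmChart_le_nmInt A P hf'B
  have hau : a ∉ A.nonunits := fun hn => hfP ⟨a, hn, ha⟩
  have ha'u : a' ∉ A.nonunits := fun hn => hf'P ⟨a', hn, ha'⟩
  -- the chart is rational
  obtain ⟨w, hw, hwJ⟩ := nti_nmY_rat (N := M * p) A P
  have hfBw := hfB
  have hf'Bw := hf'B
  rw [hw] at hfBw hf'Bw
  -- descent to a number field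
  obtain ⟨K₀, hK₀, hd⟩ := exists_descent_nmChart w f hfBw
  obtain ⟨K₀', hK₀', hd'⟩ := exists_descent_nmChart w f' hf'Bw
  haveI := hK₀
  haveI := hK₀'
  haveI : FiniteDimensional ℚ ↥(K₀ ⊔ K₀') := IntermediateField.finiteDimensional_sup K₀ K₀'
  obtain ⟨f₁, hf₁, hf₁B⟩ := hd (K₀ ⊔ K₀') le_sup_left
  obtain ⟨f₁', hf₁', hf₁'B⟩ := hd' (K₀ ⊔ K₀') le_sup_right
  haveI hdvr : IsDiscreteValuationRing ↥(A.comap (algebraMap ↥(K₀ ⊔ K₀') Qb)) :=
    Fermat.Agent.H34.modelDVR ↥(K₀ ⊔ K₀') (algebraMap ↥(K₀ ⊔ K₀') Qb) A p h.prime h.liesOver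
  letI := modelAlgebra ↥(K₀ ⊔ K₀') (A.comap (algebraMap ↥(K₀ ⊔ K₀') Qb)) (M * p)
  haveI : IsScalarTower ↥(A.comap (algebraMap ↥(K₀ ⊔ K₀') Qb)) ↥(K₀ ⊔ K₀')
      (ModelField ↥(K₀ ⊔ K₀') (M * p)) :=
    modelAlgebra_isScalarTower ↥(K₀ ⊔ K₀') (A.comap (algebraMap ↥(K₀ ⊔ K₀') Qb)) (M * p)
  obtain ⟨W₁, hW₁, hW₁c⟩ := exists_modelW M p h.cop (algebraMap ↥(K₀ ⊔ K₀') Qb)
  obtain ⟨ϖ, hϖ⟩ := IsDiscreteValuationRing.exists_irreducible
    ↥(A.comap (algebraMap ↥(K₀ ⊔ K₀') Qb))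
  have hqA : ¬ IsUnit ((p : ℕ) : ↥(A.comap (algebraMap ↥(K₀ ⊔ K₀') Qb))) :=
    nti_natCast_not_isUnit (algebraMap ↥(K₀ ⊔ K₀') Qb) A h.liesOver
  have hpM : ¬ p ∣ M := (Nat.Prime.coprime_iff_not_dvd h.prime).1 h.cop.symm
  have hinj := model_algebraMap_injective M p ↥(K₀ ⊔ K₀')
    ↥(A.comap (algebraMap ↥(K₀ ⊔ K₀') Qb))
  have hx := nti_coe_ratK_J (N := M * p) ↥(K₀ ⊔ K₀')
  have hT : Transcendental ↥(A.comap (algebraMap ↥(K₀ ⊔ K₀') Qb))
      (Fermat.Agent.H62.SS.ratK (K₁ := ↥(K₀ ⊔ K₀')) (modularFunctionFieldFull (M * p))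
        (ntiJ (M * p))) :=
    Fermat.Agent.H58.modelTranscendental_jq (M * p) ↥(K₀ ⊔ K₀')
      ↥(A.comap (algebraMap ↥(K₀ ⊔ K₀') Qb)) _ hx
  -- the two components in the chart of `P`
  have hTC : TwoComp ↥(A.comap (algebraMap ↥(K₀ ⊔ K₀') Qb)) (ModelField ↥(K₀ ⊔ K₀') (M * p)) ϖ
      (Fermat.Agent.H62.SS.ratK (K₁ := ↥(K₀ ⊔ K₀')) (modularFunctionFieldFull (M * p)) w)
      (vInf ↥(K₀ ⊔ K₀') ↥(A.comap (algebraMap ↥(K₀ ⊔ K₀') Qb)) (M * p))
      (vZero ↥(K₀ ⊔ K₀') ↥(A.comap (algebraMap ↥(K₀ ⊔ K₀') Qb)) (M * p) W₁) := by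
    rcases hwJ with rfl | rfl
    · exact twoComp_model M p ↥(K₀ ⊔ K₀') ↥(A.comap (algebraMap ↥(K₀ ⊔ K₀') Qb)) hqA ϖ hϖ _ hx
        W₁ hW₁ h.prime hpM
    · rw [map_inv₀]
      exact twoComp_model_inv M p ↥(K₀ ⊔ K₀') ↥(A.comap (algebraMap ↥(K₀ ⊔ K₀') Qb)) hqA ϖ hϖ _
        hx W₁ hW₁ h.prime hpM
  have hTy : Transcendental ↥(A.comap (algebraMap ↥(K₀ ⊔ K₀') Qb))
      (Fermat.Agent.H62.SS.ratK (K₁ := ↥(K₀ ⊔ K₀')) (modularFunctionFieldFull (M * p)) w) := by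
    rcases hwJ with rfl | rfl
    · exact hT
    · rw [map_inv₀]
      exact Fermat.Agent.H89.klg_transcendental_inv hT
  -- `f₁ ∈ 𝔪_∞`, `f₁' ∈ 𝔪_0`
  have hfV₁ : klBc (algebraMap ↥(K₀ ⊔ K₀') Qb) (modularFunctionFieldFull (M * p)) f₁ ∈
      gaussOBar (M * p) A := by rw [hf₁]; exact hfV
  have hf'V₁ : klBc (algebraMap ↥(K₀ ⊔ K₀') Qb) (modularFunctionFieldFull (M * p)) f₁' ∈
      nmV0 M p h.cop A := by rw [hf₁']; exact hf'V
  have h1 : f₁ ∈ (vInf ↥(K₀ ⊔ K₀') ↥(A.comap (algebraMap ↥(K₀ ⊔ K₀') Qb)) (M * p)).nonunits := by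
    refine (bc_gaussRedBar_eq_zero_iff (algebraMap ↥(K₀ ⊔ K₀') Qb) A (M * p) f₁ hfV₁).1 ?_
    have e : (⟨klBc (algebraMap ↥(K₀ ⊔ K₀') Qb) (modularFunctionFieldFull (M * p)) f₁, hfV₁⟩ :
        ↥(gaussOBar (M * p) A)) = ⟨f, hfV⟩ := Subtype.ext hf₁
    rw [e]
    exact (nmRedOo_eq_zero_iff (M * p) A ⟨f, hfV⟩).1 hfred
  have h2 : f₁' ∈
      (vZero ↥(K₀ ⊔ K₀') ↥(A.comap (algebraMap ↥(K₀ ⊔ K₀') Qb)) (M * p) W₁).nonunits := by
    refine (bc_nmRed0_eq_zero_iff M p h.cop (algebraMap ↥(K₀ ⊔ K₀') Qb) A W₁ hW₁c f₁'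
      hf'V₁).1 ?_
    have e : (⟨klBc (algebraMap ↥(K₀ ⊔ K₀') Qb) (modularFunctionFieldFull (M * p)) f₁', hf'V₁⟩ :
        ↥(nmV0 M p h.cop A)) = ⟨f', hf'V⟩ := Subtype.ext hf₁'
    rw [e]
    exact hf'red
  have h3 : f₁ * f₁' ∈
      (vInf ↥(K₀ ⊔ K₀') ↥(A.comap (algebraMap ↥(K₀ ⊔ K₀') Qb)) (M * p)).nonunits :=
    nti_nonunits_mul_mem h1 (hTC.mem₁ hinj hϖ hTy hf₁'B)
  have h4 : f₁ * f₁' ∈
      (vZero ↥(K₀ ⊔ K₀') ↥(A.comap (algebraMap ↥(K₀ ⊔ K₀') Qb)) (M * p) W₁).nonunits := by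
    rw [mul_comm f₁ f₁']
    exact nti_nonunits_mul_mem h2 (hTC.mem₂ hinj hϖ hTy hf₁B)
  obtain ⟨c, hc⟩ := hTC.exists_eq_mul hinj hϖ hTy (mul_mem hf₁B hf₁'B) h3 h4
  -- back to `ℚ̄`
  have hcB : klBc (algebraMap ↥(K₀ ⊔ K₀') Qb) (modularFunctionFieldFull (M * p))
      (c : ModelField ↥(K₀ ⊔ K₀') (M * p)) ∈ nmChart (M * p) A (nmY A P) := by
    have := bc_mem_nmChart (M * p) A (algebraMap ↥(K₀ ⊔ K₀') Qb) _ _ c.2
    rwa [Fermat.Agent.H62.SS.klBc_ratK, ← hw] at this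
  obtain ⟨b, hbA, hb⟩ := nti_nmChart_le_nmInt A P hcB
  have key : f * f' = algebraMap Qb (FLb (M * p)) (algebraMap ↥(K₀ ⊔ K₀') Qb (ϖ : ↥(K₀ ⊔ K₀'))) *
      klBc (algebraMap ↥(K₀ ⊔ K₀') Qb) (modularFunctionFieldFull (M * p))
        (c : ModelField ↥(K₀ ⊔ K₀') (M * p)) := by
    rw [← hf₁, ← hf₁', ← map_mul, hc, map_mul,
      IsScalarTower.algebraMap_apply ↥(A.comap (algebraMap ↥(K₀ ⊔ K₀') Qb)) ↥(K₀ ⊔ K₀')
        (ModelField ↥(K₀ ⊔ K₀') (M * p)),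
      Fermat.Agent.H62.SS.klBc_algebraMap']
    rfl
  have hv1 : HasValue P (f * f') (a * a') := nm_hasValue_mul P ha ha'
  have hv2 : HasValue P (f * f') (algebraMap ↥(K₀ ⊔ K₀') Qb (ϖ : ↥(K₀ ⊔ K₀')) * b) := by
    rw [key]
    exact nm_hasValue_mul P (nm_hasValue_const P _) hb
  have heq : a * a' = algebraMap ↥(K₀ ⊔ K₀') Qb (ϖ : ↥(K₀ ⊔ K₀')) * b :=
    nm_hasValue_unique P hv1 hv2
  have hϖA : algebraMap ↥(K₀ ⊔ K₀') Qb (ϖ : ↥(K₀ ⊔ K₀')) ∈ A.nonunits :=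
    nti_map_mem_nonunits (algebraMap ↥(K₀ ⊔ K₀') Qb) A hϖ.not_isUnit
  have hmem : a * a' ∈ A.nonunits := by
    rw [heq]
    exact nti_nonunits_mul_mem hϖA hbA
  exact nti_mul_notMem_nonunits haA ha'A hau ha'u hmem

end Main

end Fermat.Agent.H93.ORD
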