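import Fermat.Agent.H93.ORD.BcMathlib
import Fermat.Agent.H70.ORD.RatUnique
import Fermat.Agent.H30.ORD.DescChart
import Fermat.Agent.H30.ORD.BcInt

/-!
# P-ORD, block B1-ANCHOR, step [BC](a) GENERIC (helper93)

`K₀ ⊆ ℚ̄` ANY intermediate field, `ι : K₀ → ℚ̄` the inclusion, `E = ModelField K₀ N`,
`F = FLb N = ℚ̄(X₀(N))`, `bc = klBc ι : E → F`, `A` a valuation subring of `ℚ̄`,
`A₀ = A.comap ι = A ∩ K₀`, `y₁ ∈ E`.

* `bcg_core` : an element `f` of `F` integral over `ℚ̄[bc y₁]` is a `ℚ̄`-linear combination of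
  base changes `bc (g i)` of elements `g i ∈ E` integral over `K₀[y₁]`.
  Proof without Galois theory of `F`: `f = ∑ b_i bc(g_i)` with `b` a basis of a finite extension
  `K₁ / K₀`; the conjugates of `f` by the coefficientwise action of extensions `τ_j` of the
  embeddings `σ_j : K₁ → ℚ̄` are again integral over `ℚ̄[bc y₁]`, and the matrix `(σ_j b_i)` is
  invertible: `bc (g_i) = ∑_j N'_{ij} f^{τ_j}` is integral over `ℚ̄[bc y₁]`, hence over
  `K₀[bc y₁]`, hence `g_i` is integral over `K₀[y₁]`.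
* `bcg_generic` **[BC](a)** : every `f ∈ nmChart N A (bc y₁)` has `c f = ∑ a_i bc (b_i)` with
  `c ≠ 0`, `c, a_i ∈ A`, `b_i ∈ chartClosure A₀ E y₁` : exactly the hypothesis `hrep` of
  `Fermat.Agent.H92.ORD.bcs_baseChange` (with `S = chartClosure A₀ E y₁`).
-/

set_option autoImplicit false
set_option linter.unusedSectionVars false
set_option linter.unusedVariables false
set_option linter.style.haveILetI false
set_option maxHeartbeats 1600000
set_option synthInstance.maxHeartbeats 400000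

noncomputable section

namespace Fermat.Agent.H93.ORD

open Polynomial ModularCurve AlgebraicCurve
open Fermat.Agent.H22.KL Fermat.Agent.H9.E6 Fermat.Agent.H84.ORD Fermat.Agent.H72.FF
open Fermat.Agent.H93.KL (klBc)

/-! ### Mathlib-level lemmas on integrality along ring homomorphisms -/

section Gen

/-- finite sums of integral elements are integral -/
theorem bcg_isIntegralElem_sum {R S : Type*} [CommRing R] [CommRing S] (φ : R →+* S)
    {α : Type*} (s : Finset α) (x : α → S) (h : ∀ i ∈ s, φ.IsIntegralElem (x i)) :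
    φ.IsIntegralElem (∑ i ∈ s, x i) := by
  letI : Algebra R S := φ.toAlgebra
  exact IsIntegral.sum (R := R) x h

/-- transitivity of integrality, elementwise -/
theorem bcg_isIntegralElem_trans {R S T : Type*} [CommRing R] [CommRing S] [CommRing T]
    (φ : R →+* S) (ψ : S →+* T) (hφ : φ.IsIntegral) {x : T} (hx : ψ.IsIntegralElem x) :
    (ψ.comp φ).IsIntegralElem x := by
  letI a1 : Algebra R S := φ.toAlgebra
  letI a2 : Algebra S T := ψ.toAlgebra
  letI a3 : Algebra R T := (ψ.comp φ).toAlgebra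
  haveI : IsScalarTower R S T := IsScalarTower.of_algebraMap_eq (fun _ => rfl)
  haveI : Algebra.IsIntegral R S := ⟨hφ⟩
  exact isIntegral_trans (R := R) (A := S) x hx

/-- polynomial rings over an integral extension are integral -/
theorem bcg_mapRingHom_isIntegral {K L : Type*} [CommRing K] [CommRing L] (ι : K →+* L)
    (h : ι.IsIntegral) : (Polynomial.mapRingHom ι).IsIntegral := by
  intro P
  induction P using Polynomial.induction_on' with
  | add p q hp hq => exact RingHom.IsIntegralElem.add _ hp hq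
  | monomial n a =>
    rw [← C_mul_X_pow_eq_monomial]
    refine RingHom.IsIntegralElem.mul _ ?_ ?_
    · exact isIntegralElem_map_of_comm ι (Polynomial.mapRingHom ι) (C : K →+* K[X])
        (C : L →+* L[X]) (by ext; simp) (h a)
    · have h1 := (Polynomial.mapRingHom ι).isIntegralElem_map (x := (X : K[X]) ^ n)
      simpa using h1

end Gen

/-! ### Conjugation of the coefficients -/

section Conj

variable (F₀ : IntermediateField ℚ (LaurentSeries ℚ))

/-- conjugation of the coefficients by a ring endomorphism of `ℚ̄` -/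
def bcgConj (τ : Qb →+* Qb) : ↥(laurentBaseChange Qb F₀) →+* ↥(laurentBaseChange Qb F₀) :=
  klBc τ F₀

theorem bcgConj_algebraMap (τ : Qb →+* Qb) (c : Qb) :
    bcgConj F₀ τ (algebraMap Qb ↥(laurentBaseChange Qb F₀) c) =
      algebraMap Qb ↥(laurentBaseChange Qb F₀) (τ c) :=
  Fermat.Agent.H62.SS.klBc_algebraMap' τ F₀ c

theorem bcgConj_klBc {K₁ : Type} [Field K₁] [Algebra ℚ K₁] (ι : K₁ →+* Qb) (τ : Qb →+* Qb)
    (h : τ.comp ι = ι) (g : ↥(laurentBaseChange K₁ F₀)) :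
    bcgConj F₀ τ (klBc ι F₀ g) = klBc ι F₀ g := by
  apply Subtype.ext
  show coeffMap τ (coeffMap ι (g : LaurentSeries K₁)) = coeffMap ι (g : LaurentSeries K₁)
  rw [coeffMap_coeffMap]
  exact coeffMap_congr h _

/-- evaluation `ℚ̄[X] → F`, `X ↦ y` -/
def bcgEv (y : ↥(laurentBaseChange Qb F₀)) : Qb[X] →+* ↥(laurentBaseChange Qb F₀) :=
  ((Polynomial.aeval y : Qb[X] →ₐ[Qb] ↥(laurentBaseChange Qb F₀)) :
    Qb[X] →+* ↥(laurentBaseChange Qb F₀))

theorem bcgEv_C (y : ↥(laurentBaseChange Qb F₀)) (c : Qb) :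
    bcgEv F₀ y (C c) = algebraMap Qb ↥(laurentBaseChange Qb F₀) c := by
  show Polynomial.aeval y (C c) = _
  rw [aeval_C]

theorem bcgEv_X (y : ↥(laurentBaseChange Qb F₀)) : bcgEv F₀ y X = y := by
  show Polynomial.aeval y X = _
  rw [aeval_X]

theorem bcgConj_comp_bcgEv (τ : Qb →+* Qb) (y : ↥(laurentBaseChange Qb F₀)) :
    (bcgConj F₀ τ).comp (bcgEv F₀ y) =
      (bcgEv F₀ (bcgConj F₀ τ y)).comp (Polynomial.mapRingHom τ) := by
  refine Polynomial.ringHom_ext (fun a => ?_) ?_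
  · simp only [RingHom.comp_apply, Polynomial.coe_mapRingHom, Polynomial.map_C]
    rw [bcgEv_C, bcgEv_C, bcgConj_algebraMap]
  · simp only [RingHom.comp_apply, Polynomial.coe_mapRingHom, Polynomial.map_X]
    rw [bcgEv_X, bcgEv_X]

/-- constants are integral -/
theorem bcgEv_isIntegralElem_algebraMap (y : ↥(laurentBaseChange Qb F₀)) (c : Qb) :
    (bcgEv F₀ y).IsIntegralElem (algebraMap Qb ↥(laurentBaseChange Qb F₀) c) := by
  rw [← bcgEv_C F₀ y c]
  exact (bcgEv F₀ y).isIntegralElem_map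

/-- conjugates of integral elements are integral -/
theorem bcgConj_isIntegralElem (τ : Qb →+* Qb) (y f : ↥(laurentBaseChange Qb F₀))
    (hy : bcgConj F₀ τ y = y) (hf : (bcgEv F₀ y).IsIntegralElem f) :
    (bcgEv F₀ y).IsIntegralElem (bcgConj F₀ τ f) := by
  have h := isIntegralElem_map_of_comm (bcgEv F₀ y) (bcgEv F₀ (bcgConj F₀ τ y))
    (Polynomial.mapRingHom τ) (bcgConj F₀ τ) (bcgConj_comp_bcgEv F₀ τ y) hf
  rwa [hy] at h

variable {K₁ : Type} [Field K₁] [Algebra ℚ K₁] (ι : K₁ →+* Qb)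

/-- evaluation `K₁[X] → E`, `X ↦ y₁` -/
def bcgEvK (y₁ : ↥(laurentBaseChange K₁ F₀)) : K₁[X] →+* ↥(laurentBaseChange K₁ F₀) :=
  ((Polynomial.aeval y₁ : K₁[X] →ₐ[K₁] ↥(laurentBaseChange K₁ F₀)) :
    K₁[X] →+* ↥(laurentBaseChange K₁ F₀))

theorem bcgEvK_C (y₁ : ↥(laurentBaseChange K₁ F₀)) (c : K₁) :
    bcgEvK F₀ y₁ (C c) = algebraMap K₁ ↥(laurentBaseChange K₁ F₀) c := by
  show Polynomial.aeval y₁ (C c) = _
  rw [aeval_C]

theorem bcgEvK_X (y₁ : ↥(laurentBaseChange K₁ F₀)) : bcgEvK F₀ y₁ X = y₁ := by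
  show Polynomial.aeval y₁ X = _
  rw [aeval_X]

theorem bcg_klBc_comp_bcgEvK (y₁ : ↥(laurentBaseChange K₁ F₀)) :
    (klBc ι F₀).comp (bcgEvK F₀ y₁) =
      (bcgEv F₀ (klBc ι F₀ y₁)).comp (Polynomial.mapRingHom ι) := by
  refine Polynomial.ringHom_ext (fun a => ?_) ?_
  · simp only [RingHom.comp_apply, Polynomial.coe_mapRingHom, Polynomial.map_C]
    rw [bcgEv_C, bcgEvK_C, Fermat.Agent.H62.SS.klBc_algebraMap']
  · simp only [RingHom.comp_apply, Polynomial.coe_mapRingHom, Polynomial.map_X]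
    rw [bcgEv_X, bcgEvK_X]

/-- **reflection** : if `bc g` is integral over `ℚ̄[bc y₁]` then `g` is integral over
`K₁[y₁]` (`ℚ̄` integral over `K₁`) -/
theorem bcg_reflect (hι : ι.IsIntegral) (y₁ g : ↥(laurentBaseChange K₁ F₀))
    (hg : (bcgEv F₀ (klBc ι F₀ y₁)).IsIntegralElem (klBc ι F₀ g)) :
    (bcgEvK F₀ y₁).IsIntegralElem g := by
  have h1 := bcg_isIntegralElem_trans (Polynomial.mapRingHom ι) (bcgEv F₀ (klBc ι F₀ y₁))
    (bcg_mapRingHom_isIntegral ι hι) hg
  rw [← bcg_klBc_comp_bcgEvK] at h1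
  exact isIntegralElem_of_comp_injective (bcgEvK F₀ y₁) (klBc ι F₀) (klBc ι F₀).injective h1

end Conj

/-! ### The core : integral elements are combinations of integral model elements -/

section Core

variable (F₀ : IntermediateField ℚ (LaurentSeries ℚ)) (K₀ : IntermediateField ℚ Qb)

theorem bcg_core (y₁ : ↥(laurentBaseChange ↥K₀ F₀)) (f : ↥(laurentBaseChange Qb F₀))
    (hf : (bcgEv F₀ (klBc (algebraMap ↥K₀ Qb) F₀ y₁)).IsIntegralElem f) :
    ∃ (n : ℕ) (θ : Fin n → Qb) (g : Fin n → ↥(laurentBaseChange ↥K₀ F₀)),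
      (∀ i, (bcgEvK F₀ y₁).IsIntegralElem (g i)) ∧
      f = ∑ i, algebraMap Qb ↥(laurentBaseChange Qb F₀) (θ i) *
        klBc (algebraMap ↥K₀ Qb) F₀ (g i) := by
  classical
  haveI halg0 : Algebra.IsAlgebraic ℚ Qb := AlgebraicClosure.isAlgebraic ℚ
  haveI halg : Algebra.IsAlgebraic ↥K₀ Qb := Algebra.IsAlgebraic.tower_top (K := ℚ) ↥K₀
  haveI hintg : Algebra.IsIntegral ↥K₀ Qb := Algebra.IsAlgebraic.isIntegral
  obtain ⟨s, g₀, hfs⟩ := Fermat.Agent.H70.ORD.exists_sum_klBc (algebraMap ↥K₀ Qb) F₀ f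
  -- the finite extension `K₁ = K₀(s)`
  let K₁ : IntermediateField ↥K₀ Qb := IntermediateField.adjoin ↥K₀ (↑s : Set Qb)
  haveI hfin : Finite (↑s : Set Qb) := Set.Finite.to_subtype s.finite_toSet
  haveI hfd : FiniteDimensional ↥K₀ ↥K₁ :=
    IntermediateField.finiteDimensional_adjoin (fun x _ => Algebra.IsIntegral.isIntegral x)
  have hsK : ∀ c ∈ s, c ∈ K₁ := fun c hc =>
    IntermediateField.subset_adjoin _ _ (Finset.mem_coe.2 hc)
  let b := Module.finBasis ↥K₀ ↥K₁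
  let m : Qb → Fin (Module.finrank ↥K₀ ↥K₁) → ↥K₀ :=
    fun c i => if hc : c ∈ K₁ then b.repr ⟨c, hc⟩ i else 0
  have hm : ∀ c ∈ s, c = ∑ i, algebraMap ↥K₀ Qb (m c i) * ((b i : ↥K₁) : Qb) := by
    intro c hc
    have h1 := b.sum_repr ⟨c, hsK c hc⟩
    have h2 := congrArg (fun x : ↥K₁ => (x : Qb)) h1
    simp only [AddSubmonoidClass.coe_finsetSum, IntermediateField.coe_smul] at h2
    refine h2.symm.trans (Finset.sum_congr rfl fun i _ => ?_)
    rw [Algebra.smul_def]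
    simp only [m, dif_pos (hsK c hc)]
  let g' : Fin (Module.finrank ↥K₀ ↥K₁) → ↥(laurentBaseChange ↥K₀ F₀) :=
    fun i => ∑ c ∈ s, algebraMap ↥K₀ ↥(laurentBaseChange ↥K₀ F₀) (m c i) * g₀ c
  have hf2 : f = ∑ i, algebraMap Qb ↥(laurentBaseChange Qb F₀) ((b i : ↥K₁) : Qb) *
      klBc (algebraMap ↥K₀ Qb) F₀ (g' i) := by
    calc f = ∑ c ∈ s, algebraMap Qb ↥(laurentBaseChange Qb F₀) c *
          klBc (algebraMap ↥K₀ Qb) F₀ (g₀ c) := hfs
      _ = ∑ c ∈ s, ∑ i, algebraMap Qb ↥(laurentBaseChange Qb F₀) ((b i : ↥K₁) : Qb) *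
            (algebraMap Qb ↥(laurentBaseChange Qb F₀) (algebraMap ↥K₀ Qb (m c i)) *
              klBc (algebraMap ↥K₀ Qb) F₀ (g₀ c)) := by
          refine Finset.sum_congr rfl fun c hc => ?_
          have e1 : algebraMap Qb ↥(laurentBaseChange Qb F₀) c =
              ∑ i, algebraMap Qb ↥(laurentBaseChange Qb F₀) (algebraMap ↥K₀ Qb (m c i)) *
                algebraMap Qb ↥(laurentBaseChange Qb F₀) ((b i : ↥K₁) : Qb) := by
            conv_lhs => rw [hm c hc]
            rw [map_sum]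
            refine Finset.sum_congr rfl fun i _ => ?_
            rw [map_mul]
          rw [e1, Finset.sum_mul]
          refine Finset.sum_congr rfl fun i _ => ?_
          ring
      _ = ∑ i, ∑ c ∈ s, algebraMap Qb ↥(laurentBaseChange Qb F₀) ((b i : ↥K₁) : Qb) *
            (algebraMap Qb ↥(laurentBaseChange Qb F₀) (algebraMap ↥K₀ Qb (m c i)) *
              klBc (algebraMap ↥K₀ Qb) F₀ (g₀ c)) := Finset.sum_comm
      _ = _ := by
          refine Finset.sum_congr rfl fun i _ => ?_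
          rw [map_sum (klBc (algebraMap ↥K₀ Qb) F₀), Finset.mul_sum]
          refine Finset.sum_congr rfl fun c _ => ?_
          rw [map_mul, Fermat.Agent.H62.SS.klBc_algebraMap']
  -- the conjugates
  obtain ⟨σ, N', hN⟩ := bcg_exists_matrix (Ω := Qb) b
  choose τ hτ using fun j => bcg_exists_extension K₁ (σ j)
  have hτι : ∀ j, ((τ j : Qb →ₐ[↥K₀] Qb) : Qb →+* Qb).comp (algebraMap ↥K₀ Qb) =
      algebraMap ↥K₀ Qb := fun j => RingHom.ext fun a => (τ j).commutes a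
  have hconj : ∀ j, bcgConj F₀ ((τ j : Qb →ₐ[↥K₀] Qb) : Qb →+* Qb) f =
      ∑ i, algebraMap Qb ↥(laurentBaseChange Qb F₀) (σ j (b i)) *
        klBc (algebraMap ↥K₀ Qb) F₀ (g' i) := by
    intro j
    conv_lhs => rw [hf2]
    rw [map_sum]
    refine Finset.sum_congr rfl fun i _ => ?_
    rw [map_mul, bcgConj_algebraMap, bcgConj_klBc F₀ _ _ (hτι j)]
    have h3 : ((τ j : Qb →ₐ[↥K₀] Qb) : Qb →+* Qb) ((b i : ↥K₁) : Qb) = σ j (b i) := hτ j (b i)
    rw [h3]
  have hinv : ∀ i, klBc (algebraMap ↥K₀ Qb) F₀ (g' i) =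
      ∑ j, algebraMap Qb ↥(laurentBaseChange Qb F₀) (N' i j) *
        bcgConj F₀ ((τ j : Qb →ₐ[↥K₀] Qb) : Qb →+* Qb) f := by
    intro i
    symm
    calc ∑ j, algebraMap Qb ↥(laurentBaseChange Qb F₀) (N' i j) *
          bcgConj F₀ ((τ j : Qb →ₐ[↥K₀] Qb) : Qb →+* Qb) f
        = ∑ j, ∑ k, algebraMap Qb ↥(laurentBaseChange Qb F₀) (N' i j * σ j (b k)) *
            klBc (algebraMap ↥K₀ Qb) F₀ (g' k) := by
          refine Finset.sum_congr rfl fun j _ => ?_
          rw [hconj j, Finset.mul_sum]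
          refine Finset.sum_congr rfl fun k _ => ?_
          rw [map_mul]
          ring
      _ = ∑ k, ∑ j, algebraMap Qb ↥(laurentBaseChange Qb F₀) (N' i j * σ j (b k)) *
            klBc (algebraMap ↥K₀ Qb) F₀ (g' k) := Finset.sum_comm
      _ = ∑ k, algebraMap Qb ↥(laurentBaseChange Qb F₀) (if i = k then 1 else 0) *
            klBc (algebraMap ↥K₀ Qb) F₀ (g' k) := by
          refine Finset.sum_congr rfl fun k _ => ?_
          rw [← Finset.sum_mul, ← map_sum, hN i k]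
      _ = klBc (algebraMap ↥K₀ Qb) F₀ (g' i) := by
          rw [Finset.sum_eq_single i]
          · rw [if_pos rfl, map_one, one_mul]
          · intro k _ hk
            rw [if_neg (Ne.symm hk), map_zero, zero_mul]
          · intro h
            exact absurd (Finset.mem_univ i) h
  -- integrality
  have hy : ∀ j, bcgConj F₀ ((τ j : Qb →ₐ[↥K₀] Qb) : Qb →+* Qb)
      (klBc (algebraMap ↥K₀ Qb) F₀ y₁) = klBc (algebraMap ↥K₀ Qb) F₀ y₁ :=
    fun j => bcgConj_klBc F₀ _ _ (hτι j) y₁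
  have hint : ∀ i, (bcgEv F₀ (klBc (algebraMap ↥K₀ Qb) F₀ y₁)).IsIntegralElem
      (klBc (algebraMap ↥K₀ Qb) F₀ (g' i)) := by
    intro i
    rw [hinv i]
    refine bcg_isIntegralElem_sum _ _ _ fun j _ => ?_
    exact RingHom.IsIntegralElem.mul _ (bcgEv_isIntegralElem_algebraMap F₀ _ _)
      (bcgConj_isIntegralElem F₀ _ _ _ (hy j) hf)
  refine ⟨Module.finrank ↥K₀ ↥K₁, fun i => ((b i : ↥K₁) : Qb), g',
    fun i => bcg_reflect F₀ (algebraMap ↥K₀ Qb) ?_ y₁ (g' i) (hint i), hf2⟩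
  exact fun x => Algebra.IsIntegral.isIntegral x

end Core

/-! ### [BC](a) : the generic part of the base change -/

section Generic

variable (N : ℕ) (A : ValuationSubring Qb) (K₀ : IntermediateField ℚ Qb)
  [Algebra ↥(A.comap (algebraMap ↥K₀ Qb)) (ModelField ↥K₀ N)]
  [IsScalarTower ↥(A.comap (algebraMap ↥K₀ Qb)) ↥K₀ (ModelField ↥K₀ N)]

/-- integrality over `A[y]` implies integrality over `ℚ̄[y]` -/
theorem bcg_isIntegralElem_of_mem_nmChart (y f : FLb N) (hf : f ∈ nmChart N A y) :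
    (bcgEv (modularFunctionFieldFull N) y).IsIntegralElem f := by
  rw [Fermat.Agent.H30.ORD.mem_nmChart_iff_ddEv] at hf
  have hcomm : (RingHom.id (FLb N)).comp (Fermat.Agent.H30.ORD.ddEv N A y) =
      (bcgEv (modularFunctionFieldFull N) y).comp (Polynomial.mapRingHom A.subtype) := by
    refine Polynomial.ringHom_ext (fun a => ?_) ?_
    · simp only [RingHom.comp_apply, Polynomial.coe_mapRingHom, Polynomial.map_C,
        RingHom.id_apply]
      rw [Fermat.Agent.H30.ORD.ddEv_C, bcgEv_C]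
      rfl
    · simp only [RingHom.comp_apply, Polynomial.coe_mapRingHom, Polynomial.map_X,
        RingHom.id_apply]
      rw [Fermat.Agent.H30.ORD.ddEv_X, bcgEv_X]
  exact isIntegralElem_map_of_comm _ _ (Polynomial.mapRingHom A.subtype) (RingHom.id (FLb N))
    hcomm hf

/-- elements integral over `(A ∩ K₀)[y₁]` along `K₀[X]` lie in the chart closure -/
theorem bcg_mem_chartClosure (y₁ z : ModelField ↥K₀ N)
    (hz : ((((aeval y₁ : (↥K₀)[X] →ₐ[↥K₀] ModelField ↥K₀ N) :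
        (↥K₀)[X] →+* ModelField ↥K₀ N)).comp
      (Polynomial.mapRingHom (A.comap (algebraMap ↥K₀ Qb)).subtype)).IsIntegralElem z) :
    z ∈ chartClosure ↥(A.comap (algebraMap ↥K₀ Qb)) (ModelField ↥K₀ N) y₁ := by
  rw [Fermat.Agent.H87.KL.mem_chartClosure_iff]
  have hcomm : ((((aeval y₁ : (↥K₀)[X] →ₐ[↥K₀] ModelField ↥K₀ N) :
        (↥K₀)[X] →+* ModelField ↥K₀ N)).comp
      (Polynomial.mapRingHom (A.comap (algebraMap ↥K₀ Qb)).subtype)) =
      Fermat.Agent.H87.KL.evX (A := ↥(A.comap (algebraMap ↥K₀ Qb))) y₁ := by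
    refine Polynomial.ringHom_ext (fun a => ?_) ?_
    · simp only [RingHom.comp_apply, Polynomial.coe_mapRingHom, Polynomial.map_C]
      rw [Fermat.Agent.H87.KL.evX_apply, aeval_C]
      show aeval y₁ (C _) = _
      rw [aeval_C,
        IsScalarTower.algebraMap_apply ↥(A.comap (algebraMap ↥K₀ Qb)) ↥K₀ (ModelField ↥K₀ N)]
      rfl
    · simp only [RingHom.comp_apply, Polynomial.coe_mapRingHom, Polynomial.map_X]
      rw [Fermat.Agent.H87.KL.evX_apply, aeval_X]
      show aeval y₁ X = _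
      rw [aeval_X]
  unfold Fermat.Agent.H87.KL.IntX
  rw [← hcomm]
  exact hz

/-- **[BC](a) GENERIC.**  Every element `f` of the `ℚ̄`-chart `nmChart N A (bc y₁)` has a
multiple `c f`, `c ≠ 0` in `A`, in the `A`-span of the base change of the model chart
`chartClosure (A ∩ K₀) (ModelField K₀ N) y₁` (`K₀ ⊆ ℚ̄` any intermediate field). -/
theorem bcg_generic (y₁ : ModelField ↥K₀ N) (f : FLb N)
    (hf : f ∈ nmChart N A (klBc (algebraMap ↥K₀ Qb) (modularFunctionFieldFull N) y₁)) :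
    ∃ c : Qb, c ∈ A ∧ c ≠ 0 ∧ ∃ (n : ℕ) (a : Fin n → Qb) (b : Fin n → ModelField ↥K₀ N),
      (∀ i, a i ∈ A) ∧
      (∀ i, b i ∈ chartClosure ↥(A.comap (algebraMap ↥K₀ Qb)) (ModelField ↥K₀ N) y₁) ∧
      algebraMap Qb (FLb N) c * f =
        ∑ i, algebraMap Qb (FLb N) (a i) *
          klBc (algebraMap ↥K₀ Qb) (modularFunctionFieldFull N) (b i) := by
  classical
  obtain ⟨n, θ, g, hg, hfg⟩ := bcg_core (modularFunctionFieldFull N) K₀ y₁ f
    (bcg_isIntegralElem_of_mem_nmChart N A _ f hf)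
  -- clear the denominators of the `g i`
  have hcl : ∀ i, ∃ d : ↥K₀, d ∈ A.comap (algebraMap ↥K₀ Qb) ∧ d ≠ 0 ∧
      algebraMap ↥K₀ (ModelField ↥K₀ N) d * g i ∈
        chartClosure ↥(A.comap (algebraMap ↥K₀ Qb)) (ModelField ↥K₀ N) y₁ := by
    intro i
    obtain ⟨d, hdA, hd0, hd⟩ := Fermat.Agent.H30.ORD.bi_clear_denominators
      (A.comap (algebraMap ↥K₀ Qb)) y₁ (g i) (hg i)
    exact ⟨d, hdA, hd0, bcg_mem_chartClosure N A K₀ y₁ _ hd⟩
  choose d hdA hd0 hd using hcl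
  let dA : Fin n → ↥(A.comap (algebraMap ↥K₀ Qb)) := fun i => ⟨d i, hdA i⟩
  let D : ↥(A.comap (algebraMap ↥K₀ Qb)) := ∏ i, dA i
  have hD0 : D ≠ 0 := by
    refine Finset.prod_ne_zero_iff.2 fun i _ h => hd0 i ?_
    exact congrArg Subtype.val h
  have hDg : ∀ i, algebraMap ↥(A.comap (algebraMap ↥K₀ Qb)) (ModelField ↥K₀ N) D * g i ∈
      chartClosure ↥(A.comap (algebraMap ↥K₀ Qb)) (ModelField ↥K₀ N) y₁ := by
    intro i
    obtain ⟨u, hu⟩ : dA i ∣ D := Finset.dvd_prod_of_mem dA (Finset.mem_univ i)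
    have h1 := Subalgebra.smul_mem
      (chartClosure ↥(A.comap (algebraMap ↥K₀ Qb)) (ModelField ↥K₀ N) y₁) (hd i) u
    have h2 : u • (algebraMap ↥K₀ (ModelField ↥K₀ N) (d i) * g i) =
        algebraMap ↥(A.comap (algebraMap ↥K₀ Qb)) (ModelField ↥K₀ N) D * g i := by
      rw [Algebra.smul_def, hu, map_mul,
        IsScalarTower.algebraMap_apply ↥(A.comap (algebraMap ↥K₀ Qb)) ↥K₀ (ModelField ↥K₀ N)
          (dA i)]
      have h3 : algebraMap ↥(A.comap (algebraMap ↥K₀ Qb)) ↥K₀ (dA i) = d i := rfl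
      rw [h3]
      ring
    rwa [h2] at h1
  -- the constants
  obtain ⟨c', hc'A, hc'0, hc'⟩ := Fermat.Agent.H30.ORD.bi_exists_common_denominator A
    (Finset.univ.image θ)
  have hιD : algebraMap ↥K₀ Qb (D : ↥K₀) ∈ A := D.2
  have hιD0 : algebraMap ↥K₀ Qb (D : ↥K₀) ≠ 0 := by
    rw [Ne, map_eq_zero]
    intro h
    exact hD0 (Subtype.ext h)
  have hbcD : ∀ i, klBc (algebraMap ↥K₀ Qb) (modularFunctionFieldFull N)
      (algebraMap ↥(A.comap (algebraMap ↥K₀ Qb)) (ModelField ↥K₀ N) D * g i) =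
      algebraMap Qb (FLb N) (algebraMap ↥K₀ Qb (D : ↥K₀)) *
        klBc (algebraMap ↥K₀ Qb) (modularFunctionFieldFull N) (g i) := by
    intro i
    rw [map_mul,
      IsScalarTower.algebraMap_apply ↥(A.comap (algebraMap ↥K₀ Qb)) ↥K₀ (ModelField ↥K₀ N),
      Fermat.Agent.H62.SS.klBc_algebraMap']
    rfl
  refine ⟨c' * algebraMap ↥K₀ Qb (D : ↥K₀), A.mul_mem _ _ hc'A hιD, mul_ne_zero hc'0 hιD0, n,
    fun i => c' * θ i,
    fun i => algebraMap ↥(A.comap (algebraMap ↥K₀ Qb)) (ModelField ↥K₀ N) D * g i,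
    fun i => hc' _ (Finset.mem_image.2 ⟨i, Finset.mem_univ i, rfl⟩), hDg, ?_⟩
  conv_lhs => rw [hfg]
  rw [Finset.mul_sum]
  refine Finset.sum_congr rfl fun i _ => ?_
  rw [hbcD i, map_mul, map_mul]
  ring

end Generic

end Fermat.Agent.H93.ORD

end
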