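import Fermat.Agent.H93.ORD.BcGeneric
import Fermat.Agent.H92.ORD.BcChart

/-!
# P-ORD, block B1-LIFT, step [BC](a) in helper92's shape (helper93)

`bcg_genericAt M p A K₀ : Fermat.Agent.H92.ORD.BcGenericAt M p A K₀` for EVERY valuation subring
`A` of `ℚ̄` and EVERY intermediate field `K₀ ⊆ ℚ̄` (unconditional), and the same statement for the
chart `j⁻¹` (`bcg_genericAt_inv`); from `Fermat.Agent.H93.ORD.bcg_generic`.
-/

set_option autoImplicit false
set_option linter.unusedSectionVars false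
set_option linter.unusedVariables false
set_option linter.style.haveILetI false
set_option maxHeartbeats 1600000
set_option synthInstance.maxHeartbeats 400000

noncomputable section

namespace Fermat.Agent.H93.ORD

open Polynomial ModularCurve AlgebraicCurve
open Fermat.Agent.H22.KL Fermat.Agent.H9.E6 Fermat.Agent.H84.ORD Fermat.Agent.H72.FF
open Fermat.Agent.H93.KL (klBc)

/-- **[BC](a)** : the generic base change for the chart `j`, over any `K₀ ⊆ ℚ̄`. -/
theorem bcg_genericAt (M p : ℕ) [NeZero M] [NeZero p] (A : ValuationSubring Qb)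
    (K₀ : IntermediateField ℚ Qb) : Fermat.Agent.H92.ORD.BcGenericAt M p A K₀ := by
  letI := modelAlgebra ↥K₀ (A.comap (algebraMap ↥K₀ Qb)) (M * p)
  haveI : IsScalarTower ↥(A.comap (algebraMap ↥K₀ Qb)) ↥K₀ (ModelField ↥K₀ (M * p)) :=
    modelAlgebra_isScalarTower ↥K₀ (A.comap (algebraMap ↥K₀ Qb)) (M * p)
  intro f hf
  have hJ : nmJ (M * p) = klBc (algebraMap ↥K₀ Qb) (modularFunctionFieldFull (M * p))
      (Fermat.Agent.H62.SS.ratK (K₁ := ↥K₀) (modularFunctionFieldFull (M * p))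
        (ntiJ (M * p))) := by
    rw [Fermat.Agent.H62.SS.klBc_ratK]
    rfl
  rw [hJ] at hf
  exact bcg_generic (M * p) A K₀ _ f hf

/-- **[BC](a)** for the chart `j⁻¹`. -/
theorem bcg_genericAt_inv (M p : ℕ) [NeZero M] [NeZero p] (A : ValuationSubring Qb)
    (K₀ : IntermediateField ℚ Qb) :
    letI := modelAlgebra ↥K₀ (A.comap (algebraMap ↥K₀ Qb)) (M * p)
    ∀ f ∈ nmChart (M * p) A (nmJ (M * p))⁻¹,
      ∃ c ∈ A, c ≠ 0 ∧ ∃ (n : ℕ) (a : Fin n → Qb) (b : Fin n → ModelField ↥K₀ (M * p)),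
        (∀ i, a i ∈ A) ∧
        (∀ i, b i ∈ chartClosure ↥(A.comap (algebraMap ↥K₀ Qb)) (ModelField ↥K₀ (M * p))
          (Fermat.Agent.H62.SS.ratK (K₁ := ↥K₀) (modularFunctionFieldFull (M * p))
            (ntiJ (M * p)))⁻¹) ∧
        algebraMap Qb (FLb (M * p)) c * f =
          ∑ i, algebraMap Qb (FLb (M * p)) (a i) *
            klBc (algebraMap ↥K₀ Qb) (modularFunctionFieldFull (M * p)) (b i) := by
  letI := modelAlgebra ↥K₀ (A.comap (algebraMap ↥K₀ Qb)) (M * p)
  haveI : IsScalarTower ↥(A.comap (algebraMap ↥K₀ Qb)) ↥K₀ (ModelField ↥K₀ (M * p)) :=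
    modelAlgebra_isScalarTower ↥K₀ (A.comap (algebraMap ↥K₀ Qb)) (M * p)
  intro f hf
  have hJ : (nmJ (M * p))⁻¹ = klBc (algebraMap ↥K₀ Qb) (modularFunctionFieldFull (M * p))
      (Fermat.Agent.H62.SS.ratK (K₁ := ↥K₀) (modularFunctionFieldFull (M * p))
        (ntiJ (M * p)))⁻¹ := by
    rw [map_inv₀, Fermat.Agent.H62.SS.klBc_ratK]
    rfl
  rw [hJ] at hf
  exact bcg_generic (M * p) A K₀ _ f hf

end Fermat.Agent.H93.ORD

end
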