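import Mathlib

/-!
# P-ORD, block B1, [BC](a) (helper93): the Mathlib-only cores

* `bcg_exists_matrix` : for a basis `b` of a finite separable extension `E / F` and an
  algebraically closed `Ω ⊇ F` there are `n` embeddings `σ_j : E → Ω` and a matrix `N'` over `Ω`
  with `∑_j N'_{ij} σ_j (b_k) = δ_{ik}` (the matrix of conjugates of a basis is invertible);
* `bcg_exists_extension` : an embedding over `F` of an intermediate field of `Ω / F` into `Ω`
  extends to an endomorphism of `Ω` over `F` (`Ω` algebraically closed, algebraic over `F`);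
* `bcg_clear_denominators` : an element integral over `K[X]` (ring homomorphism form), `K` the
  fraction field of `R`, has a multiple by a nonzero constant `d ∈ R` which is integral over
  `R[X]`.
-/

set_option autoImplicit false
set_option linter.style.haveILetI false

namespace Fermat.Agent.H93.ORD

open Matrix

/-- **The matrix of conjugates of a basis is invertible.** -/
theorem bcg_exists_matrix {F E Ω : Type*} [Field F] [Field E] [Field Ω] [Algebra F E]
    [Algebra F Ω] [IsAlgClosed Ω] [FiniteDimensional F E] [Algebra.IsSeparable F E] {n : ℕ}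
    (b : Module.Basis (Fin n) F E) :
    ∃ (σ : Fin n → (E →ₐ[F] Ω)) (N' : Matrix (Fin n) (Fin n) Ω),
      ∀ i k, ∑ j, N' i j * σ j (b k) = if i = k then 1 else 0 := by
  classical
  have hcard : Fintype.card (E →ₐ[F] Ω) = Fintype.card (Fin n) := by
    rw [AlgHom.card F E Ω, Module.finrank_eq_card_basis b]
  let e : Fin n ≃ (E →ₐ[F] Ω) := (Fintype.equivOfCardEq hcard).symm
  let M : Matrix (Fin n) (Fin n) Ω := Algebra.embeddingsMatrixReindex F Ω b e
  have hM : ∀ i j, M i j = e j (b i) := fun i j => by
    simp [M, Algebra.embeddingsMatrixReindex, Algebra.embeddingsMatrix]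
  have hdet : M.det ≠ 0 := by
    have h1 := Algebra.traceMatrix_eq_embeddingsMatrixReindex_mul_trans F Ω (b := b) e
    have h2 : (Algebra.traceMatrix F b).det ≠ 0 := by
      rw [Algebra.traceMatrix_of_basis]
      exact det_traceForm_ne_zero b
    have h3 := congrArg Matrix.det h1
    rw [Matrix.det_mul, Matrix.det_transpose] at h3
    intro h0
    have h4 : ((Algebra.traceMatrix F b).map (algebraMap F Ω)).det = 0 := by
      rw [h3]
      show M.det * M.det = 0
      rw [h0, zero_mul]
    rw [← RingHom.mapMatrix_apply, ← RingHom.map_det] at h4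
    exact h2 ((map_eq_zero_iff _ (algebraMap F Ω).injective).1 h4)
  have hu : IsUnit Mᵀ.det := by
    rw [Matrix.det_transpose]
    exact isUnit_iff_ne_zero.2 hdet
  refine ⟨e, Mᵀ⁻¹, fun i k => ?_⟩
  have h5 : Mᵀ⁻¹ * Mᵀ = 1 := Matrix.nonsing_inv_mul _ hu
  have h6 := congrFun (congrFun h5 i) k
  rw [Matrix.mul_apply, Matrix.one_apply] at h6
  rw [← h6]
  refine Finset.sum_congr rfl fun j _ => ?_
  rw [Matrix.transpose_apply, hM]

/-- **Extension of embeddings** to the algebraically closed field. -/
theorem bcg_exists_extension {F Ω : Type*} [Field F] [Field Ω] [Algebra F Ω] [IsAlgClosed Ω]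
    [Algebra.IsAlgebraic F Ω]
    (E : IntermediateField F Ω) (σ : ↥E →ₐ[F] Ω) :
    ∃ τ : Ω →ₐ[F] Ω, ∀ x : ↥E, τ (x : Ω) = σ x := by
  haveI : Algebra.IsAlgebraic ↥E Ω := Algebra.IsAlgebraic.tower_top (K := F) ↥E
  obtain ⟨τ, hτ⟩ := IsAlgClosed.surjective_domRestrict_of_isAlgebraic (K := F) (L := ↥E)
    (M := Ω) (E := Ω) σ
  refine ⟨τ, fun x => ?_⟩
  have := congrArg (fun φ : ↥E →ₐ[F] Ω => φ x) hτ
  exact this

open Polynomial in
/-- **Clearing denominators** : integral over `K[X]` implies that a nonzero constant multiple is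
integral over `R[X]` (`K = Frac R`); ring homomorphism form. -/
theorem bcg_clear_denominators {R K S : Type*} [CommRing R] [IsDomain R] [Field K] [Algebra R K]
    [IsFractionRing R K] [CommRing S] (ψ : K[X] →+* S) (g : S) (hg : ψ.IsIntegralElem g) :
    ∃ d : R, d ≠ 0 ∧
      (ψ.comp (Polynomial.mapRingHom (algebraMap R K))).IsIntegralElem
        (ψ (C (algebraMap R K d)) * g) := by
  letI algRK : Algebra R[X] K[X] := (Polynomial.mapRingHom (algebraMap R K)).toAlgebra
  letI algKS : Algebra K[X] S := ψ.toAlgebra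
  letI algRS : Algebra R[X] S := (ψ.comp (Polynomial.mapRingHom (algebraMap R K))).toAlgebra
  haveI : IsScalarTower R[X] K[X] S := IsScalarTower.of_algebraMap_eq (fun _ => rfl)
  haveI : IsLocalization (Submonoid.map (C : R →+* R[X]) (nonZeroDivisors R)) K[X] :=
    Polynomial.isLocalization (nonZeroDivisors R) K
  obtain ⟨m, hint⟩ := IsIntegral.exists_multiple_integral_of_isLocalization
    (Submonoid.map (C : R →+* R[X]) (nonZeroDivisors R)) (Rₘ := K[X]) g hg
  obtain ⟨d, hd, hdm⟩ := m.2
  refine ⟨d, nonZeroDivisors.ne_zero hd, ?_⟩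
  have e : m • g = ψ (C (algebraMap R K d)) * g := by
    rw [Submonoid.smul_def, Algebra.smul_def, ← hdm]
    show ψ (Polynomial.mapRingHom (algebraMap R K) (C d)) * g = _
    rw [Polynomial.coe_mapRingHom, Polynomial.map_C]
  rw [e] at hint
  exact hint

end Fermat.Agent.H93.ORD
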